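/-
S15, route W, block F: F-LVL.  Descent of the level for "Kummer cocycles of invariant divisors are `FlatCoc`".

`F ⊆ F'` function fields over `ℚ̄` with compatible semilinear `G_ℚ`-actions `ρ`, `ρ'`, `[F' : F] = ℓ^c d'`, `ℓ ∤ d'`.
Given `ℓ^k x₁ = [D]` on `F`, choose `x''` with `ℓ^c x'' = x₁` and put `x' = π^* x''`: `ℓ^(k+c) x' = [π^* D]`, and
`π_* (σ x' - x') = ℓ^c d' (σ x'' - x'') = d' (σ x₁ - x₁)`.  So `z = (a π_*) ∘ z'` with `a d' ≡ 1`.
-/
import Fermat.Agent.S15.W.Defs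
import Fermat.Agent.S19.Lvl.Contract

set_option autoImplicit false
set_option linter.unusedSectionVars false

namespace Fermat.Agent.S15.F

open AlgebraicCurve Fermat.Agent.Lib.RR Fermat.Agent.S15.Sel Fermat.Agent.S15.W Fermat.Agent.S19.Lvl

theorem aut_nsmul {K F : Type*} [Field K] [Field F] [Algebra K F] (g : SemilinearAut K F) (n : ℕ)
    (x : Pic0 K F) : g • (n • x) = n • (g • x) :=
  map_nsmul (DistribMulAction.toAddMonoidHom (Pic0 K F) g) n x

section pull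

variable {K F F' : Type*} [Field K] [IsAlgClosed K] [Field F] [Field F'] [Algebra K F]
  [Algebra K F'] [Algebra F F'] [IsScalarTower K F F'] [FiniteDimensional F F']
  [Algebra.IsSeparable F F'] [IsFF K F] [IsFF K F']
  (g : SemilinearAut K F) (g' : SemilinearAut K F')
  (hgg' : ∀ f : F, g' • algebraMap F F' f = algebraMap F F' (g • f))

include hgg'

theorem ramificationIndex_inv_smul (w : Place K F') :
    (g'⁻¹ • w).ramificationIndex F = w.ramificationIndex F := by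
  have hord : ∀ f : F, (g'⁻¹ • w).ord (algebraMap F F' f) = w.ord (algebraMap F F' (g • f)) := by
    intro f
    have := SemilinearAut.ord_smul g'⁻¹ w (g' • algebraMap F F' f)
    rw [inv_smul_smul] at this
    rw [this, hgg']
  unfold Place.ramificationIndex
  congr 1
  ext n
  constructor
  · rintro ⟨hn, f, hf, h⟩
    exact ⟨hn, g • f, (smul_ne_zero_iff_ne g).mpr hf, by rw [← hord, h]⟩
  · rintro ⟨hn, f, hf, h⟩
    exact ⟨hn, g⁻¹ • f, (smul_ne_zero_iff_ne g⁻¹).mpr hf, by rw [hord, smul_inv_smul, h]⟩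

/-- `π^*` is equivariant (divisors). -/
theorem pullback_smul (D : Divisor K F) :
    Divisor.pullback F' (g • D) = g' • Divisor.pullback F' D := by
  have hinv : ∀ f : F, g'⁻¹ • algebraMap F F' f = algebraMap F F' (g⁻¹ • f) := by
    intro f
    rw [inv_smul_eq_iff, hgg', smul_inv_smul]
  ext w
  rw [Divisor.pullback_apply, SemilinearAut.divisor_smul_apply, SemilinearAut.divisor_smul_apply,
    Divisor.pullback_apply, restrict_smul g⁻¹ g'⁻¹ hinv, ramificationIndex_inv_smul g g' hgg']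

/-- `π^*` is equivariant (classes). -/
theorem pullbackHom_smul (x : Pic0 K F) :
    Pic0.pullbackHom F' (g • x) = g' • Pic0.pullbackHom F' x := by
  obtain ⟨D, rfl⟩ := Pic0.mk_surjective x
  rw [SemilinearAut.pic0_smul_mk, Pic0.pullbackHom_mk, Pic0.pullbackHom_mk,
    SemilinearAut.pic0_smul_mk]
  congr 1
  apply Subtype.ext
  rw [Pic0.coe_pullbackDegZeroHom, SemilinearAut.coe_degZeroSMulHom,
    SemilinearAut.coe_degZeroSMulHom, Pic0.coe_pullbackDegZeroHom, pullback_smul g g' hgg']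

end pull

/-- "Kummer cocycles of `G_ℚ`-invariant divisors of degree `0` are `FlatCoc` at `A`" (exponents `ℓ^k`). -/
def KummerFlat (A : ValuationSubring Qb) {F : Type} [Field F] [Algebra Qb F]
    (ρ : GQ →* SemilinearAut Qb F) (ℓ : ℕ) : Prop :=
  ∀ (k : ℕ) (D : Divisor Qb F) (hD : D ∈ Divisor.degZero (K := Qb) (F := F)),
    (∀ s : GQ, ρ s • D = D) → ∀ x1 : Pic0 Qb F, ℓ ^ k • x1 = Pic0.mk ⟨D, hD⟩ →
      ∀ z : GQ → Pic0.torsion Qb F (ℓ ^ k), (∀ s, (z s : Pic0 Qb F) = ρ s • x1 - x1) → FlatCoc A z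

variable {F F' : Type} [Field F] [Field F'] [Algebra Qb F] [Algebra Qb F'] [Algebra F F']
  [IsScalarTower Qb F F'] [FiniteDimensional F F'] [Algebra.IsSeparable F F'] [IsFF Qb F]
  [IsFF Qb F']

/-- the map `a π_*` on torsion. -/
noncomputable def pushTors (a : ℤ) (n : ℕ) : Pic0.torsion Qb F' n →+ Pic0.torsion Qb F n :=
  (((zsmulAddGroupHom a).comp (pushHom Qb F F')).comp (Pic0.torsion Qb F' n).subtype).codRestrict _
    (fun y => by
      have hy := y.2
      rw [Pic0.mem_torsion] at hy ⊢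
      show (n : ℤ) • a • pushHom Qb F F' (y : Pic0 Qb F') = 0
      rw [smul_comm, ← map_zsmul, hy, map_zero, smul_zero])

theorem coe_pushTors (a : ℤ) (n : ℕ) (y : Pic0.torsion Qb F' n) :
    ((pushTors (F := F) a n y : Pic0.torsion Qb F n) : Pic0 Qb F) = a • pushHom Qb F F' (y : Pic0 Qb F') :=
  rfl

theorem torsion_le (ℓ k c : ℕ) : Pic0.torsion Qb F (ℓ ^ k) ≤ Pic0.torsion Qb F (ℓ ^ (k + c)) := by
  intro y hy
  rw [Pic0.mem_torsion, natCast_zsmul] at hy ⊢
  rw [pow_add, mul_comm, mul_smul, hy, smul_zero]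

/-- the computation downstairs. -/
theorem push_kummer (g : SemilinearAut Qb F) (g' : SemilinearAut Qb F')
    (hgg' : ∀ f : F, g' • algebraMap F F' f = algebraMap F F' (g • f)) {ℓ c d' k : ℕ}
    (hd : Module.finrank F F' = ℓ ^ c * d') {a b : ℤ} (hab : a * (d' : ℤ) + b * ((ℓ ^ k : ℕ) : ℤ) = 1)
    (x'' : Pic0 Qb F) (hz : g • (ℓ ^ c • x'') - ℓ ^ c • x'' ∈ Pic0.torsion Qb F (ℓ ^ k)) :
    a • pushHom Qb F F' (g' • Pic0.pullbackHom F' x'' - Pic0.pullbackHom F' x'')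
      = g • (ℓ ^ c • x'') - ℓ ^ c • x'' := by
  have h1 : pushHom Qb F F' (g' • Pic0.pullbackHom F' x'' - Pic0.pullbackHom F' x'')
      = d' • (g • (ℓ ^ c • x'') - ℓ ^ c • x'') := by
    rw [map_sub, pushHom_smul g g' hgg', pushHom_pullbackHom, hd, mul_comm (ℓ ^ c) d', mul_smul,
      nsmul_sub, aut_nsmul]
  have h2 : ((ℓ ^ k : ℕ) : ℤ) • (g • (ℓ ^ c • x'') - ℓ ^ c • x'') = 0 := (Pic0.mem_torsion).1 hz
  rw [h1, ← natCast_zsmul _ d', ← mul_smul]
  have h3 : a * (d' : ℤ) = 1 - b * ((ℓ ^ k : ℕ) : ℤ) := by linarith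
  rw [h3, sub_smul, one_smul, mul_smul, h2, smul_zero, sub_zero]

/-- the class upstairs. -/
theorem pull_kummer {ℓ c k : ℕ} {D : Divisor Qb F} (hD : D ∈ Divisor.degZero (K := Qb) (F := F))
    (x'' : Pic0 Qb F) (hx1 : ℓ ^ k • (ℓ ^ c • x'') = Pic0.mk ⟨D, hD⟩) :
    ℓ ^ (k + c) • Pic0.pullbackHom F' x''
      = Pic0.mk ⟨Divisor.pullback F' D, Divisor.pullback_mem_degZero hD⟩ := by
  rw [← map_nsmul, pow_add, mul_smul, hx1, Pic0.pullbackHom_mk]
  exact congrArg Pic0.mk (Subtype.ext (Pic0.coe_pullbackDegZeroHom _))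

theorem mem_torsion_kummer (g' : SemilinearAut Qb F') {n : ℕ} {D' : Divisor Qb F'}
    (hD' : D' ∈ Divisor.degZero (K := Qb) (F := F')) (hinv' : g' • D' = D') (x' : Pic0 Qb F')
    (hx' : n • x' = Pic0.mk ⟨D', hD'⟩) : g' • x' - x' ∈ Pic0.torsion Qb F' n := by
  rw [Pic0.mem_torsion, natCast_zsmul, nsmul_sub, ← aut_nsmul, hx', SemilinearAut.pic0_smul_mk,
    sub_eq_zero]
  refine congrArg Pic0.mk (Subtype.ext ?_)
  rw [SemilinearAut.coe_degZeroSMulHom]
  exact hinv'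

/-- **F-LVL** (abstract form). -/
theorem KummerFlat.of_cover {A : ValuationSubring Qb} (ρ : GQ →* SemilinearAut Qb F)
    (ρ' : GQ →* SemilinearAut Qb F')
    (hcompat : ∀ (σ : GQ) (f : F), ρ' σ • algebraMap F F' f = algebraMap F F' (ρ σ • f))
    {ℓ : ℕ} (hℓ : ℓ.Prime) (h' : KummerFlat A ρ' ℓ) : KummerFlat A ρ ℓ := by
  intro k D hD hinv x1 hx1 z hz
  obtain ⟨c, d', hd', hd⟩ := Nat.exists_eq_pow_mul_and_not_dvd
    (Module.finrank_pos (R := F) (M := F')).ne' ℓ hℓ.ne_one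
  obtain ⟨x'', rfl⟩ := exists_pow_nsmul_eq ℓ hℓ c x1
  have hx'D := pull_kummer (F' := F') hD x'' hx1
  have hinv' : ∀ s : GQ, ρ' s • Divisor.pullback F' D = Divisor.pullback F' D := by
    intro s
    rw [← pullback_smul (ρ s) (ρ' s) (hcompat s), hinv s]
  have hmem : ∀ s : GQ, ρ' s • Pic0.pullbackHom F' x'' - Pic0.pullbackHom F' x''
      ∈ Pic0.torsion Qb F' (ℓ ^ (k + c)) :=
    fun s => mem_torsion_kummer (ρ' s) _ (hinv' s) _ hx'D
  have hflat' := h' (k + c) (Divisor.pullback F' D) _ hinv' _ hx'D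
    (fun s => ⟨_, hmem s⟩) (fun s => rfl)
  have hcop : IsCoprime (d' : ℤ) ((ℓ ^ k : ℕ) : ℤ) := by
    rw [Nat.isCoprime_iff_coprime]
    exact Nat.Coprime.pow_right _ ((Nat.Prime.coprime_iff_not_dvd hℓ).mpr hd').symm
  obtain ⟨a, b, hab⟩ := hcop
  have : Finite (Pic0.torsion Qb F (ℓ ^ (k + c))) := finite_torsion ℓ hℓ _
  refine FlatCoc.of_injective (AddSubgroup.inclusion (torsion_le ℓ k c))
    (AddSubgroup.inclusion_injective _) ?_
  have hkey : (fun σ => AddSubgroup.inclusion (torsion_le (F := F) ℓ k c) (z σ))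
      = fun σ => pushTors (F := F) a (ℓ ^ (k + c)) ⟨_, hmem σ⟩ := by
    funext σ
    apply Subtype.ext
    rw [coe_pushTors, AddSubgroup.coe_inclusion, hz σ]
    refine (push_kummer (ρ σ) (ρ' σ) (hcompat σ) hd hab x'' ?_).symm
    rw [← hz σ]
    exact (z σ).2
  rw [hkey]
  exact hflat'.map (pushTors (F := F) a (ℓ ^ (k + c)))

end Fermat.Agent.S15.F
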