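/-
S15, route W, block F: `t ↦ f(t E)` has separated variables on a SUBGROUP `Γ₀ → Γ`
(copy of `S19/B/Den.lean`: the invariant orthonormal basis comes from the big group `Γ`, the good position is only
required for the conjugates under `Γ₀`).
-/
import Fermat.Agent.S19.B.Den

set_option autoImplicit false

namespace Fermat.Agent.S15.F

open AlgebraicCurve Fermat.Agent.Lib.RR Fermat.Agent.GAL.RED Fermat.Agent.S19 Fermat.Agent.S19.Weil

variable {K F k Fb : Type*} [Field K] [Field F] [Algebra K F] [Field k] [Field Fb] [Algebra k Fb]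
  [IsFF K F] [IsAlgClosed K] [IsFF k Fb] [IsAlgClosed k]
  {R : RedData K F k Fb} {r : Place K F → Place k Fb} {Γ Γ₀ : Type*} [Group Γ] [Group Γ₀]
  {ρ : Γ →* SemilinearAut K F}

/-- restriction of `IsSep` to a subgroup. -/
theorem isSep_comp {β : Γ →* RingAut K} {A : ValuationSubring K} {u : Γ → K} (h : IsSep β A u)
    (ι : Γ₀ →* Γ) : IsSep (β.comp ι) A (fun t => u (ι t)) := by
  obtain ⟨n, a, b, ha, hb, hab⟩ := h
  exact ⟨n, a, b, ha, fun i t => hb i (ι t), fun t => hab (ι t)⟩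

/-- one point. -/
theorem isSep_den_pt (h : GalRed R r ρ) (ι : Γ₀ →* Γ) {f : F} (hf : R.red f ≠ 0)
    {𝔄 : Divisor K F} (h𝔄 : 0 ≤ 𝔄)
    (hinv : ∀ τ, ρ τ • 𝔄 = 𝔄) (hfL : f ∈ riemannRochSpace 𝔄) (P : Place K F)
    (hP : ∀ t : Γ₀, ∀ Q ∈ 𝔄.support, r Q ≠ r (ρ (ι t) • P)) :
    IsSep ((baseHom K F).comp (ρ.comp ι)) R.A (fun t => ev (ρ (ι t) • P) f) := by
  obtain ⟨n, β, hβinv, hβO, hβind, hβspan⟩ := h.basis 𝔄 hinv
  have hfO : f ∈ R.O := (R.red_ne_zero_iff.1 hf).2.1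
  rw [← hβspan] at hfL
  obtain ⟨c, rfl⟩ := (Submodule.mem_span_range_iff_exists_fun K).1 hfL
  have hc : ∀ i, c i ∈ R.A := coeff_mem_of_sum_mem R hβO hβind c hfO
  have hβL : ∀ i, β i ∈ riemannRochSpace 𝔄 := by
    intro i
    rw [← hβspan]
    exact Submodule.subset_span ⟨i, rfl⟩
  have hreg : ∀ (t : Γ₀) i, β i ∈ (ρ (ι t) • P).toValuationSubring := by
    intro τ i
    have h0 : 𝔄 (ρ (ι τ) • P) = 0 := by
      by_contra hne
      exact hP τ (ρ (ι τ) • P) (Finsupp.mem_support_iff.2 hne) rfl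
    rw [mem_iff_ord]
    rcases mem_riemannRochSpace_iff.1 (hβL i) (ρ (ι τ) • P) with h1 | h1
    · exact Or.inl h1
    · right
      rwa [h0, neg_zero] at h1
  have hev : ∀ (t : Γ₀) i, ev (ρ (ι t) • P) (β i) = SemilinearAut.baseAut (ρ (ι t)) (ev P (β i)) := by
    intro τ i
    rw [← ev_smul, hβinv]
  refine ⟨n, c, fun i => ev P (β i), hc, fun i τ => ?_, fun τ => ?_⟩
  · have h1 : ((baseHom K F).comp (ρ.comp ι)) τ (ev P (β i)) = ev (ρ (ι τ) • P) (β i) :=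
      (hev τ i).symm
    rw [h1]
    exact (ev_red h.isRedMap h𝔄 (hβL i) (hβO i) (hP τ)).1
  · show ev (ρ (ι τ) • P) (∑ i, c i • β i) = _
    rw [Den_ev_sum_smul _ c β (hreg τ)]
    refine Finset.sum_congr rfl fun i _ => ?_
    rw [hev τ i]
    rfl

/-- divisors. -/
theorem isSep_den (h : GalRed R r ρ) (ι : Γ₀ →* Γ) {f : F} (hf : R.red f ≠ 0) {𝔄 : Divisor K F}
    (h𝔄 : 0 ≤ 𝔄)
    (hinv : ∀ τ, ρ τ • 𝔄 = 𝔄) (hfL : f ∈ riemannRochSpace 𝔄) (E : Divisor K F)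
    (hP : ∀ t : Γ₀, ∀ P ∈ E.support, ∀ Q ∈ 𝔄.support, r Q ≠ r (ρ (ι t) • P))
    (hP' : ∀ t : Γ₀, ∀ P ∈ E.support, ∀ Q ∈ (divOf (K := K) f).support, r Q ≠ r (ρ (ι t) • P)) :
    IsSep ((baseHom K F).comp (ρ.comp ι)) R.A (fun t => ((evD f (ρ (ι t) • E) : Kˣ) : K)) := by
  have horb : ∀ b : K, (Set.range fun t => ((baseHom K F).comp (ρ.comp ι)) t b).Finite := by
    intro b
    refine (h.orbK b).subset ?_
    rintro _ ⟨t, rfl⟩
    exact ⟨ι t, rfl⟩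
  have hunit : ∀ t : Γ₀, ∀ P ∈ E.support, ev (ρ (ι t) • P) f ≠ 0 ∧ ev (ρ (ι t) • P) f ∈ R.A ∧
      (ev (ρ (ι t) • P) f)⁻¹ ∈ R.A := fun τ P hPE => ev_unit h.isRedMap hf (hP' τ P hPE)
  have hformula : ∀ t : Γ₀, ((evD f (ρ (ι t) • E) : Kˣ) : K) =
      ∏ P ∈ E.support, ev (ρ (ι t) • P) f ^ (E P) := by
    intro τ
    unfold evD
    rw [SemilinearAut.divisor_smul_def,
      Finsupp.prod_mapDomain_index_inj (MulAction.injective (ρ (ι τ))), Finsupp.prod, Units.coe_prod]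
    refine Finset.prod_congr rfl fun P hPE => ?_
    rw [Units.val_zpow_eq_zpow_val, Ev_evU_val_of_ne _ (hunit τ P hPE).1]
  refine IsSep.congr ?_ (fun τ => (hformula τ).symm)
  refine IsSep.prod E.support fun P hPE => ?_
  exact IsSep.zpow horb (isSep_den_pt h ι hf h𝔄 hinv hfL P (fun τ => hP τ P hPE))
    (fun τ => (hunit τ P hPE).1) (fun τ => (hunit τ P hPE).2.2) (E P)

end Fermat.Agent.S15.F
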