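/-
S15, route W, block F: the formula for the Weil pairing of a KUMMER cocycle.

`div f = m X₀ - D₀₀`, `s D₀₀ = D₀₀`, `(E, g)` a representative of `y ∈ J[m]`; then `(s X₀ - X₀, s f / f)` represents
`s x₀ - x₀` and
`weil (s x₀ - x₀) (s y) = s(f(E)) · f(s E)⁻¹ · s(g(X₀))⁻¹ · (s g)(X₀)`.
-/
import Fermat.Agent.S19.Weil.Pairing
import Fermat.Agent.S19.Weil.EvGal

set_option autoImplicit false
set_option linter.unusedSectionVars false

namespace Fermat.Agent.S15.F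

open AlgebraicCurve Fermat.Agent.Lib.RR Fermat.Agent.S19.Weil

variable {K F : Type*} [Field K] [IsAlgClosed K] [CharZero K] [Field F] [Algebra K F] [IsFF K F]

theorem isRep_kummer {m : ℕ} {X0 D00 : Divisor K F} {f : F} (s : SemilinearAut K F)
    (hX0 : X0 ∈ Divisor.degZero (K := K) (F := F)) (hf0 : f ≠ 0)
    (hdiv : divOf (K := K) f = m • X0 - D00) (hs : s • D00 = D00) :
    IsRep m (s • Pic0.mk ⟨X0, hX0⟩ - Pic0.mk ⟨X0, hX0⟩) (s • X0 - X0) (s • f / f) := by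
  have hsf : s • f ≠ 0 := (smul_ne_zero_iff_ne s).mpr hf0
  refine ⟨sub_mem (SemilinearAut.smul_mem_degZero s hX0) hX0, ?_, div_ne_zero hsf hf0, ?_⟩
  · rw [SemilinearAut.pic0_smul_mk]
    have h1 : (⟨s • X0 - X0, sub_mem (SemilinearAut.smul_mem_degZero s hX0) hX0⟩ :
        Divisor.degZero (K := K) (F := F)) = SemilinearAut.degZeroSMulHom s ⟨X0, hX0⟩ - ⟨X0, hX0⟩ := by
      apply Subtype.ext
      rw [AddSubgroup.coe_sub, SemilinearAut.coe_degZeroSMulHom]
    rw [h1]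
    rfl
  · rw [div_eq_mul_inv, divOf_mul hsf (inv_ne_zero hf0), divOf_inv, divOf_smul, hdiv, smul_sub, hs,
      smul_comm, smul_sub]
    abel

theorem weil_kummer_eq {m : ℕ} {y : Pic0 K F} {X0 E D00 : Divisor K F} {f g : F}
    (s : SemilinearAut K F)
    (hX0 : X0 ∈ Divisor.degZero (K := K) (F := F)) (hf0 : f ≠ 0)
    (hdiv : divOf (K := K) f = m • X0 - D00) (hs : s • D00 = D00) (hE : IsRep m y E g)
    (h1 : ∀ P, E P ≠ 0 → X0 P = 0 ∧ D00 P = 0)
    (h2 : ∀ P, (s • E) P ≠ 0 → X0 P = 0 ∧ D00 P = 0) :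
    weil m (s • Pic0.mk ⟨X0, hX0⟩ - Pic0.mk ⟨X0, hX0⟩) (s • y) =
      Units.map (SemilinearAut.baseAut s : K →* K) (evD f E) * (evD f (s • E))⁻¹ *
        (Units.map (SemilinearAut.baseAut s : K →* K) (evD g X0))⁻¹ * evD (s • g) X0 := by
  have hsf : s • f ≠ 0 := (smul_ne_zero_iff_ne s).mpr hf0
  have hord : ∀ P, X0 P = 0 → D00 P = 0 → P.ord f = 0 := by
    intro P hP1 hP2
    rw [← divOf_apply (K := K) f P, hdiv, Finsupp.sub_apply, Finsupp.smul_apply, hP1, hP2]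
    simp
  have hd : DisjD (s • X0 - X0) (s • E) := by
    intro P
    by_cases hP : (s • E) P = 0
    · exact Or.inr hP
    · left
      have h3 := (h2 P hP).1
      have h4 : (s • X0) P = 0 := by
        rw [SemilinearAut.divisor_smul_apply] at hP ⊢
        exact (h1 _ hP).1
      rw [Finsupp.sub_apply, h3, h4, sub_zero]
  have hd1 : Disj (s • f) (s • E) := by
    refine ⟨hsf, fun P hP => ?_⟩
    rw [SemilinearAut.divisor_smul_apply] at hP
    have h3 := SemilinearAut.ord_smul s (s⁻¹ • P) f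
    rw [smul_inv_smul] at h3
    rw [h3]
    exact hord _ (h1 _ hP).1 (h1 _ hP).2
  have hd2 : Disj f (s • E) := ⟨hf0, fun P hP => hord P (h2 P hP).1 (h2 P hP).2⟩
  rw [weil_eq (isRep_kummer s hX0 hf0 hdiv hs) (hE.smul s) hd, evD_div hd1 hd2, evD_sub, evD_smul,
    evD_smul]
  rw [div_eq_mul_inv, div_eq_mul_inv, div_eq_mul_inv, mul_inv, inv_inv]
  rw [mul_assoc, mul_assoc, mul_assoc]

end Fermat.Agent.S15.F
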