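/-
S15, route W, block F (abstract form): THE KUMMER COCYCLE OF AN INVARIANT DIVISOR HAS SEPARATED VARIABLES.

`h : GalRed R r ρ` (S19/B) for the big group `Γ`; `ι : Γ₀ → Γ` a subgroup acting trivially on the reductions of places
(inertia).  `D₀₀` a `Γ`-invariant divisor of degree `0`, `m x₀ = [D₀₀]`, `y ∈ J[m]`.  Then
`t ↦ weil m (t x₀ - x₀) (t y)` is `IsSep` on `Γ₀`.

Proof.  `Z₀ = r(supp D₀₀)`.  `(E, g)` a representative of `y` with `r(supp E) ∩ Z₀ = ∅`, `g` a Gauss unit.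
`Z = r(Γ supp E)`.  `X₀` a representative of `x₀`, `X₀ + 𝔄 ≥ 0`, `𝔄` invariant, `r(supp X₀ ∪ supp 𝔄) ∩ Z = ∅`.
`div f = m X₀ - D₀₀`, `f` a Gauss unit, `f ∈ L(m 𝔄 + D₀₀⁺)`.  Formula `weil_kummer_eq`; the four factors: conjugate of a
unit, `isSep_den`, conjugate of a unit, `S19.isSep_num`.
-/
import Fermat.Agent.S15.F.Den
import Fermat.Agent.S15.F.Formula
import Fermat.Agent.S19.B.Main

set_option autoImplicit false
set_option linter.unusedSectionVars false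

namespace Fermat.Agent.S15.F

open AlgebraicCurve Fermat.Agent.Lib.RR Fermat.Agent.GAL.RED Fermat.Agent.S19 Fermat.Agent.S19.Weil

variable {K F k Fb : Type*} [Field K] [Field F] [Algebra K F] [Field k] [Field Fb] [Algebra k Fb]
  [IsFF K F] [IsAlgClosed K] [CharZero K] [IsFF k Fb] [IsAlgClosed k]
  {R : RedData K F k Fb} {r : Place K F → Place k Fb} {Γ Γ₀ : Type*} [Group Γ] [Group Γ₀]
  {ρ : Γ →* SemilinearAut K F}

theorem zpow_val_mem {A : ValuationSubring K} {u : Kˣ} (h1 : (u : K) ∈ A) (h2 : ((u⁻¹ : Kˣ) : K) ∈ A)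
    (n : ℤ) : ((u ^ n : Kˣ) : K) ∈ A := by
  rcases le_total 0 n with hn | hn
  · obtain ⟨j, rfl⟩ := Int.eq_ofNat_of_zero_le hn
    rw [zpow_natCast, Units.val_pow_eq_pow_val]
    exact A.pow_mem h1 j
  · obtain ⟨j, hj⟩ := Int.eq_ofNat_of_zero_le (neg_nonneg.2 hn)
    have : n = -(j : ℤ) := by omega
    rw [this, zpow_neg, zpow_natCast, ← inv_pow, Units.val_pow_eq_pow_val]
    exact A.pow_mem h2 j

/-- the value of a Gauss unit on a divisor in good position lies in `A`. -/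
theorem evD_mem (hr : IsRedMap R r) {f : F} (hf : R.red f ≠ 0) (E : Divisor K F)
    (hE : ∀ P ∈ E.support, ∀ Q ∈ (divOf (K := K) f).support, r Q ≠ r P) :
    ((evD f E : Kˣ) : K) ∈ R.A := by
  unfold evD
  rw [Finsupp.prod, Units.coe_prod]
  refine Subring.prod_mem R.A.toSubring fun P hP => ?_
  obtain ⟨h0, h1, h2⟩ := ev_unit hr hf (hE P hP)
  refine zpow_val_mem ?_ ?_ _
  · rw [Ev_evU_val_of_ne _ h0]; exact h1
  · rw [Units.val_inv_eq_inv_val, Ev_evU_val_of_ne _ h0]; exact h2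

/-- the positive part of a divisor. -/
noncomputable def posPart (D : Divisor K F) : Divisor K F :=
  Finsupp.mapRange (fun n : ℤ => max n 0) (by simp) D

theorem posPart_apply (D : Divisor K F) (P : Place K F) : posPart D P = max (D P) 0 := rfl

theorem posPart_smul (g : SemilinearAut K F) {D : Divisor K F} (h : g • D = D) :
    g • posPart D = posPart D := by
  ext P
  rw [SemilinearAut.divisor_smul_apply, posPart_apply, posPart_apply]
  have := DFunLike.congr_fun h P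
  rw [SemilinearAut.divisor_smul_apply] at this
  rw [this]

theorem isSep_kummer (h : GalRed R r ρ) (hg : genusFF K F = genusFF k Fb) (ι : Γ₀ →* Γ)
    (hι : ∀ (t : Γ₀) (P : Place K F), r (ρ (ι t) • P) = r P)
    (hA : ∀ (t : Γ₀) (a : K), a ∈ R.A → SemilinearAut.baseAut (ρ (ι t)) a ∈ R.A)
    {m : ℕ} {D00 : Divisor K F} (hD00 : D00 ∈ Divisor.degZero (K := K) (F := F))
    (hinv : ∀ τ, ρ τ • D00 = D00) {x0 y : Pic0 K F} (hx0 : m • x0 = Pic0.mk ⟨D00, hD00⟩)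
    (hy : y ∈ Pic0.torsion K F m) :
    IsSep ((baseHom K F).comp (ρ.comp ι)) R.A
      (fun t => ((weil m (ρ (ι t) • x0 - x0) (ρ (ι t) • y) : Kˣ) : K)) := by
  classical
  have hsupp : ∀ (B : Divisor K F) (Q : Place K F), Q ∈ (m • B).support → B Q ≠ 0 := by
    intro B Q hQ h0
    rw [Finsupp.mem_support_iff, Finsupp.smul_apply, h0, smul_zero] at hQ
    exact hQ rfl
  -- `Z₀` and the representative `(E, g)` of `y`
  set Z0 : Finset (Place k Fb) := D00.support.image r with hZ0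
  have hmemZ0 : ∀ P, D00 P ≠ 0 → r P ∈ Z0 := fun P hP =>
    Finset.mem_image_of_mem r (Finsupp.mem_support_iff.2 hP)
  obtain ⟨𝔅, h𝔅0, h𝔅deg, h𝔅inv, h𝔅Z⟩ := h.aux Z0 (3 * genusFF K F)
  obtain ⟨⟨E, hEdeg⟩, hEy, hE𝔅, hEZ⟩ := exists_good_rep h.isRedMap hg y 𝔅
    (by push_cast at h𝔅deg; exact h𝔅deg) Z0
  simp only at hE𝔅 hEZ
  have hEZ' : ∀ P : Place K F, E P ≠ 0 → r P ∉ Z0 := by
    intro P hP
    by_cases h1 : 𝔅 P = 0
    · apply hEZ P
      rw [Finsupp.mem_support_iff, Finsupp.add_apply, h1, add_zero]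
      exact hP
    · exact h𝔅Z P (Finsupp.mem_support_iff.2 h1)
  have hy' := hy
  rw [Pic0.mem_torsion, ← hEy, PairAux_zsmul_mk_eq_zero_iff] at hy'
  obtain ⟨g₀, hg₀, hdivg₀⟩ := hy'
  obtain ⟨cg, hcg0, hredg⟩ := h.cartesian.exists_scale hg₀
  set g : F := algebraMap K F cg * g₀ with hgdef
  have hcgF : algebraMap K F cg ≠ 0 := by
    rw [Ne, map_eq_zero]
    exact hcg0
  have hg0 : g ≠ 0 := mul_ne_zero hcgF hg₀
  have hdivg : divOf (K := K) g = m • E := by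
    rw [hgdef, divOf_mul hcgF hg₀, divOf_algebraMap, zero_add, hdivg₀]
  have hrepE : IsRep m y E g := ⟨hEdeg, hEy, hg0, hdivg⟩
  -- the finite set `Z = r(Γ · supp E)`
  have hZfin : (⋃ P ∈ E.support, r '' (Set.range fun τ : Γ => ρ τ • P)).Finite :=
    Set.Finite.biUnion E.support.finite_toSet fun P _ => (h.orbP P).image r
  set Z : Finset (Place k Fb) := hZfin.toFinset with hZ
  have hmemZ : ∀ τ : Γ, ∀ P ∈ E.support, r (ρ τ • P) ∈ Z := by
    intro τ P hP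
    rw [hZ, Set.Finite.mem_toFinset]
    exact Set.mem_biUnion (Finset.mem_coe.2 hP) ⟨_, ⟨τ, rfl⟩, rfl⟩
  have hmemZ' : ∀ τ : Γ, ∀ P : Place K F, (ρ τ • E) P ≠ 0 → r P ∈ Z := by
    intro τ P hP
    rw [SemilinearAut.divisor_smul_apply] at hP
    have h1 := hmemZ τ _ (Finsupp.mem_support_iff.2 hP)
    rwa [smul_inv_smul] at h1
  have hmemZ1 : ∀ P : Place K F, E P ≠ 0 → r P ∈ Z := by
    intro P hP
    have := hmemZ 1 P (Finsupp.mem_support_iff.2 hP)
    rwa [map_one, one_smul] at this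
  -- the representative `X₀` of `x₀`
  obtain ⟨𝔄, h𝔄0, h𝔄deg, h𝔄inv, h𝔄Z⟩ := h.aux Z (3 * genusFF K F)
  obtain ⟨⟨X0, hX0deg⟩, hX0x, hX𝔄, hXZ⟩ := exists_good_rep h.isRedMap hg x0 𝔄
    (by push_cast at h𝔄deg; exact h𝔄deg) Z
  simp only at hX𝔄 hXZ
  have hXZ' : ∀ P : Place K F, X0 P ≠ 0 → r P ∉ Z := by
    intro P hP
    by_cases h1 : 𝔄 P = 0
    · apply hXZ P
      rw [Finsupp.mem_support_iff, Finsupp.add_apply, h1, add_zero]
      exact hP
    · exact h𝔄Z P (Finsupp.mem_support_iff.2 h1)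
  -- the function `f`
  have hmX0 : m • X0 ∈ Divisor.degZero (K := K) (F := F) := nsmul_mem hX0deg m
  have hx0' : Pic0.mk ⟨D00, hD00⟩ = Pic0.mk ⟨m • X0, hmX0⟩ := by
    rw [← hx0, ← hX0x]
    rfl
  obtain ⟨f₀, hf₀, hdiv₀⟩ := (PairAux_mk_eq_mk_iff hD00 hmX0).1 hx0'
  obtain ⟨c, hc0, hred⟩ := h.cartesian.exists_scale hf₀
  set f : F := algebraMap K F c * f₀ with hf
  have hcF : algebraMap K F c ≠ 0 := by
    rw [Ne, map_eq_zero]
    exact hc0
  have hf0 : f ≠ 0 := mul_ne_zero hcF hf₀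
  have hdiv : divOf (K := K) f = m • X0 - D00 := by
    rw [hf, divOf_mul hcF hf₀, divOf_algebraMap, zero_add, hdiv₀, add_sub_cancel_left]
  have hsuppf : ∀ Q ∈ (divOf (K := K) f).support, X0 Q ≠ 0 ∨ D00 Q ≠ 0 := by
    intro Q hQ
    by_contra hcon
    push Not at hcon
    rw [Finsupp.mem_support_iff, hdiv, Finsupp.sub_apply, Finsupp.smul_apply, hcon.1, hcon.2] at hQ
    simp at hQ
  set 𝔄' : Divisor K F := m • 𝔄 + posPart D00 with h𝔄'
  have h𝔄'0 : 0 ≤ 𝔄' := by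
    intro P
    rw [h𝔄', Finsupp.add_apply, posPart_apply]
    have h1 : 0 ≤ (m • 𝔄) P := nsmul_nonneg h𝔄0 m P
    have h2 : (0 : ℤ) ≤ max (D00 P) 0 := le_max_right _ _
    simpa using add_nonneg h1 h2
  have h𝔄'inv : ∀ τ, ρ τ • 𝔄' = 𝔄' := by
    intro τ
    rw [h𝔄', smul_add, smul_comm, h𝔄inv τ, posPart_smul _ (hinv τ)]
  have hsupp𝔄' : ∀ Q ∈ 𝔄'.support, 𝔄 Q ≠ 0 ∨ D00 Q ≠ 0 := by
    intro Q hQ
    by_contra hcon
    push Not at hcon
    rw [Finsupp.mem_support_iff, h𝔄', Finsupp.add_apply, Finsupp.smul_apply, posPart_apply, hcon.1,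
      hcon.2] at hQ
    simp at hQ
  have hfL : f ∈ riemannRochSpace 𝔄' := by
    rw [mem_L_iff]
    right
    intro P
    have h1 : 0 ≤ (m • (X0 + 𝔄)) P := nsmul_nonneg hX𝔄 m P
    have h2 : D00 P ≤ max (D00 P) 0 := le_max_left _ _
    rw [hdiv, h𝔄']
    simp only [Finsupp.add_apply, Finsupp.sub_apply, Finsupp.smul_apply, posPart_apply,
      Finsupp.coe_zero, Pi.zero_apply, smul_add] at h1 ⊢
    linarith
  -- good position
  have hgood1 : ∀ P, E P ≠ 0 → X0 P = 0 ∧ D00 P = 0 := by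
    intro P hP
    constructor
    · by_contra h1
      exact hXZ' P h1 (hmemZ1 P hP)
    · by_contra h1
      exact hEZ' P hP (hmemZ0 P h1)
  have hrE : ∀ (t : Γ₀) (P : Place K F), (ρ (ι t) • E) P ≠ 0 → r P ∉ Z0 := by
    intro t P hP
    rw [SemilinearAut.divisor_smul_apply] at hP
    have h1 := hEZ' _ hP
    have h2 := hι t ((ρ (ι t))⁻¹ • P)
    rw [smul_inv_smul] at h2
    rwa [h2]
  have hgood2 : ∀ (t : Γ₀) P, (ρ (ι t) • E) P ≠ 0 → X0 P = 0 ∧ D00 P = 0 := by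
    intro t P hP
    constructor
    · by_contra h1
      exact hXZ' P h1 (hmemZ' (ι t) P hP)
    · by_contra h1
      exact hrE t P hP (hmemZ0 P h1)
  have hformula : ∀ t : Γ₀, weil m (ρ (ι t) • x0 - x0) (ρ (ι t) • y) =
      Units.map (SemilinearAut.baseAut (ρ (ι t)) : K →* K) (evD f E) * evD f (ρ (ι t) • (-E)) *
        Units.map (SemilinearAut.baseAut (ρ (ι t)) : K →* K) (evD g X0)⁻¹ * evD (ρ (ι t) • g) X0 := by
    intro t
    rw [← hX0x, weil_kummer_eq (ρ (ι t)) hX0deg hf0 hdiv (hinv (ι t)) hrepE hgood1 (hgood2 t),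
      smul_neg, evD_neg, map_inv]
  -- the four factors
  have hfE : ∀ P ∈ E.support, ∀ Q ∈ (divOf (K := K) f).support, r Q ≠ r P := by
    intro P hP Q hQ heq
    have hP' := Finsupp.mem_support_iff.1 hP
    rcases hsuppf Q hQ with h1 | h1
    · exact hXZ' Q h1 (heq ▸ hmemZ1 P hP')
    · exact hEZ' P hP' (heq ▸ hmemZ0 Q h1)
  have hgX : ∀ P ∈ X0.support, ∀ Q ∈ (divOf (K := K) g).support, r Q ≠ r P := by
    intro P hP Q hQ heq
    rw [hdivg] at hQ
    exact hXZ' P (Finsupp.mem_support_iff.1 hP) (heq ▸ hmemZ1 Q (hsupp E Q hQ))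
  have hS1 : IsSep ((baseHom K F).comp (ρ.comp ι)) R.A
      (fun t => ((baseHom K F).comp (ρ.comp ι)) t ((evD f E : Kˣ) : K)) :=
    IsSep.conj fun t => hA t _ (evD_mem h.isRedMap hred E hfE)
  have hS3 : IsSep ((baseHom K F).comp (ρ.comp ι)) R.A
      (fun t => ((baseHom K F).comp (ρ.comp ι)) t (((evD g X0)⁻¹ : Kˣ) : K)) := by
    refine IsSep.conj fun t => hA t _ ?_
    rw [← evD_neg]
    refine evD_mem h.isRedMap hredg (-X0) ?_
    rw [Finsupp.support_neg]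
    exact hgX
  have hS2 : IsSep ((baseHom K F).comp (ρ.comp ι)) R.A
      (fun t => ((evD f (ρ (ι t) • (-E)) : Kˣ) : K)) := by
    refine isSep_den h ι hred h𝔄'0 h𝔄'inv hfL (-E) ?_ ?_
    · intro t P hP Q hQ heq
      rw [Finsupp.support_neg] at hP
      have hP' := Finsupp.mem_support_iff.1 hP
      rw [hι t P] at heq
      rcases hsupp𝔄' Q hQ with h1 | h1
      · exact h𝔄Z Q (Finsupp.mem_support_iff.2 h1) (heq ▸ hmemZ1 P hP')
      · exact hEZ' P hP' (heq ▸ hmemZ0 Q h1)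
    · intro t P hP Q hQ heq
      rw [Finsupp.support_neg] at hP
      rw [hι t P] at heq
      exact hfE P hP Q hQ heq
  have hS4 : IsSep ((baseHom K F).comp (ρ.comp ι)) R.A
      (fun t => ((evD (ρ (ι t) • g) X0 : Kˣ) : K)) := by
    refine isSep_comp (S19.isSep_num h hg0 X0 hX0deg ?_) ι
    intro τ P hP Q hQ heq
    rw [divOf_smul, hdivg, smul_comm] at hP
    exact hXZ' Q (Finsupp.mem_support_iff.1 hQ) (heq ▸ hmemZ' τ P (hsupp _ P hP))
  refine (((hS1.mul hS2).mul hS3).mul hS4).congr fun t => ?_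
  rw [hformula t, Units.val_mul, Units.val_mul, Units.val_mul]
  rfl

end Fermat.Agent.S15.F
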