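/-
S15, route W, block F: F-CHAR.  Every character of `J[ℓ^k]` is `weil (ℓ^k) · y`.
-/
import Fermat.Agent.S19.ND.Main
import Fermat.Agent.S19.DIV.Export

set_option autoImplicit false
set_option linter.unusedSectionVars false

namespace Fermat.Agent.S15.F

open AlgebraicCurve Fermat.Agent.Lib.RR Fermat.Agent.S19.Weil

/-- Dedekind: a finite additive group has at most `#T` characters with values in a field. -/
theorem card_addChar_le' (T K : Type*) [AddCommGroup T] [Finite T] [Field K] :
    Finite (AddChar T K) ∧ Nat.card (AddChar T K) ≤ Nat.card T := by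
  classical
  have := Fintype.ofFinite T
  have hli := linearIndependent_monoidHom (Multiplicative T) K
  have hfin : Finite (Multiplicative T →* K) := hli.finite
  have := Fintype.ofFinite (Multiplicative T →* K)
  have h1 := hli.fintype_card_le_finrank
  have h2 : Module.finrank K (Multiplicative T → K) = Nat.card T := by
    rw [Module.finrank_fintype_fun_eq_card, Nat.card_eq_fintype_card]
    exact Fintype.card_multiplicative T
  have e : AddChar T K ≃ (Multiplicative T →* K) := AddChar.toMonoidHomEquiv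
  refine ⟨Finite.of_equiv _ e.symm, ?_⟩
  rw [Nat.card_congr e, Nat.card_eq_fintype_card, ← h2]
  exact h1

variable {K F : Type*} [Field K] [IsAlgClosed K] [CharZero K] [Field F] [Algebra K F] [IsFF K F]

/-- `x ↦ weil m x y` as a character of `J[m]`. -/
noncomputable def weilChar (m : ℕ) (y : Pic0.torsion K F m) : AddChar (Pic0.torsion K F m) K where
  toFun x := ((weil m (x : Pic0 K F) (y : Pic0 K F) : Kˣ) : K)
  map_zero_eq_one' := by
    show ((weil m (0 : Pic0 K F) (y : Pic0 K F) : Kˣ) : K) = 1
    rw [weil_zero_left, Units.val_one]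
  map_add_eq_mul' x x' := by
    show ((weil m ((x : Pic0 K F) + (x' : Pic0 K F)) (y : Pic0 K F) : Kˣ) : K) = _
    rw [weil_add_left x.2 x'.2 y.2, Units.val_mul]

theorem weilChar_apply (m : ℕ) (y x : Pic0.torsion K F m) :
    weilChar m y x = ((weil m (x : Pic0 K F) (y : Pic0 K F) : Kˣ) : K) := rfl

theorem weilChar_injective (ℓ : ℕ) (hℓ : ℓ.Prime) (k : ℕ) :
    Function.Injective (weilChar (K := K) (F := F) (ℓ ^ k)) := by
  intro y y' h
  apply Subtype.ext
  refine S19.ND.weil_separates K F S19.DIV.divStatement ℓ hℓ k y.2 y'.2 fun x hx => ?_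
  have h1 := DFunLike.congr_fun h ⟨x, hx⟩
  rw [weilChar_apply, weilChar_apply] at h1
  rw [weil_swap (ℓ ^ k) x y, weil_swap (ℓ ^ k) x y', Units.ext h1]

/-- **F-CHAR.** -/
theorem exists_weilChar_eq (ℓ : ℕ) (hℓ : ℓ.Prime) (k : ℕ) [Finite (Pic0.torsion K F (ℓ ^ k))]
    (ψ : AddChar (Pic0.torsion K F (ℓ ^ k)) K) : ∃ y, weilChar (ℓ ^ k) y = ψ := by
  obtain ⟨hfin, hcard⟩ := card_addChar_le' (Pic0.torsion K F (ℓ ^ k)) K
  have hinj := weilChar_injective (K := K) (F := F) ℓ hℓ k
  have hbij : Function.Bijective (weilChar (K := K) (F := F) (ℓ ^ k)) := by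
    rw [Nat.bijective_iff_injective_and_card]
    exact ⟨hinj, le_antisymm (Nat.card_le_card_of_injective _ hinj) hcard⟩
  exact hbij.2 ψ

end Fermat.Agent.S15.F
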