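/-
S15, route W, block F: the Kummer cocycle of a `G_ℚ`-invariant divisor at a NEAT level `M` is `FlatCoc`.
-/
import Fermat.Agent.S15.W.Defs
import Fermat.Agent.S15.F.Abs
import Fermat.Agent.S15.F.Char
import Fermat.Agent.S19.C.Contract
import Fermat.Agent.S19.Lvl.Cover
import Fermat.Agent.S37.Equivariant
import Fermat.Agent.S36.Kron.InputCore
import Fermat.Agent.S36R.K0.BlockL

set_option autoImplicit false
set_option linter.unusedSectionVars false

namespace Fermat.Agent.S15.F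

open AlgebraicCurve ModularCurve Fermat.Agent.Lib.RR Fermat.Agent.GAL.RED
  Fermat.Agent.S19 Fermat.Agent.S19.Weil Fermat.Agent.S15.W

/-- the abstract-to-`IsSEP` step: for a curve over `Qb` with a Galois action `ρ` inducing the natural action on constants. -/
theorem flatCoc_of_galRed {F k Fb : Type} [Field F] [Algebra Qb F] [Field k] [Field Fb] [Algebra k Fb]
    [IsFF Qb F] [IsFF k Fb] [IsAlgClosed k] {R : RedData Qb F k Fb} {rr : Place Qb F → Place k Fb}
    (ρ : GQ →* SemilinearAut Qb F) (hρ : ∀ (σ : GQ) (a : Qb), SemilinearAut.baseAut (ρ σ) a = σ a)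
    (h : GalRed R rr ρ) (hg : genusFF Qb F = genusFF k Fb)
    (hι : ∀ t ∈ Sel.Ine R.A, ∀ P : Place Qb F, rr (ρ t • P) = rr P)
    (hA : ∀ t ∈ Sel.Ine R.A, ∀ a ∈ R.A, t a ∈ R.A)
    {r k' : ℕ} (hr : r.Prime) {D00 : Divisor Qb F} (hD00 : D00 ∈ Divisor.degZero (K := Qb) (F := F))
    (hinv : ∀ σ, ρ σ • D00 = D00) {x0 : Pic0 Qb F} (hx0 : r ^ k' • x0 = Pic0.mk ⟨D00, hD00⟩)
    (z : GQ → Pic0.torsion Qb F (r ^ k')) (hz : ∀ σ, (z σ : Pic0 Qb F) = ρ σ • x0 - x0) :
    FlatCoc R.A z := by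
  classical
  intro ψ
  have hfin : Finite (Pic0.torsion Qb F (r ^ k')) := Lvl.finite_torsion r hr k'
  obtain ⟨y, rfl⟩ := exists_weilChar_eq r hr k' ψ
  have hsep := isSep_kummer h hg (Sel.Ine R.A).subtype (fun t P => hι t.1 t.2 P)
    (fun t a ha => by rw [hρ]; exact hA t.1 t.2 a ha) hD00 hinv hx0 y.2
  have hSEP : IsSEP R.A
      (fun t => ((weil (r ^ k') (ρ t • x0 - x0) (ρ t • (y : Pic0 Qb F)) : Qbˣ) : Qb)) := by
    refine IsSEP.of_isSep ((baseHom Qb F).comp (ρ.comp (Sel.Ine R.A).subtype))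
      (fun t => if ht : t ∈ Sel.Ine R.A then ⟨t, ht⟩ else 1) ?_ hsep ?_
    · intro t ht x
      rw [dif_pos ht]
      exact hρ t x
    · intro t ht
      rw [dif_pos ht]
      rfl
  refine (hSEP.inv_of_pow_eq_one (m := r ^ k') (pow_ne_zero _ hr.ne_zero) ?_).congr ?_
  · intro t _
    rw [← Units.val_pow_eq_pow_val, weil_pow, Units.val_one]
  · intro t _
    have h1 : ρ t • ((z t⁻¹ : Pic0.torsion Qb F (r ^ k')) : Pic0 Qb F) = -(ρ t • x0 - x0) := by
      rw [hz, smul_sub, map_inv, smul_inv_smul]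
      abel
    have htors : ρ t • x0 - x0 ∈ Pic0.torsion Qb F (r ^ k') := by
      rw [← hz]; exact (z t).2
    have hty : ρ t • (y : Pic0 Qb F) ∈ Pic0.torsion Qb F (r ^ k') := by
      have hy := y.2
      rw [Pic0.mem_torsion] at hy ⊢
      rw [smul_comm, hy]
      exact smul_zero (A := Pic0 Qb F) (ρ t)
    have h2 : weil (r ^ k') (-(ρ t • x0 - x0)) (ρ t • (y : Pic0 Qb F))
        = (weil (r ^ k') (ρ t • x0 - x0) (ρ t • (y : Pic0 Qb F)))⁻¹ := by
      have h3 := weil_add_left (neg_mem htors) htors hty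
      rw [neg_add_cancel, weil_zero_left] at h3
      exact eq_inv_of_mul_eq_one_left h3.symm
    have h4 := weil_smul (ρ t) (r ^ k') ((z t⁻¹ : Pic0.torsion Qb F (r ^ k')) : Pic0 Qb F)
      (y : Pic0 Qb F)
    rw [h1, h2] at h4
    rw [weilChar_apply, ← hρ t, ← Units.val_inv_eq_inv_val, h4]
    rfl

/-- **F.neat**: the Kummer cocycle of a `G_ℚ`-invariant divisor of degree `0` at a neat level. -/
theorem neat {M r k : ℕ} [NeZero M] (hr : r.Prime) (hrM : ¬ r ∣ M) (hneat : 4 ∣ M ∨ 9 ∣ M)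
    (A : ValuationSubring Qb) (hA : A.LiesOverPrime r) (D00 : Divisor Qb (FN M))
    (hD00 : D00 ∈ Divisor.degZero (K := Qb) (F := FN M)) (hinv : ∀ σ : GQ, rhoN M σ • D00 = D00)
    (x0 : JZero M) (hx0 : r ^ k • x0 = Pic0.mk ⟨D00, hD00⟩)
    (z : GQ → Pic0.torsion Qb (FN M) (r ^ k)) (hz : ∀ σ, (z σ : JZero M) = σ • x0 - x0) :
    FlatCoc A z := by
  have : Fact r.Prime := ⟨hr⟩
  have hchar := Fermat.Agent.GAL.Hecke.charP_residueField A hr hA
  have hM : ((M : ℕ) : IsLocalRing.ResidueField ↥A) ≠ 0 := by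
    rw [Ne, CharP.cast_eq_zero_iff (IsLocalRing.ResidueField ↥A) r]
    exact hrM
  have i0 : IsFF Qb (FN M) := Fermat.Agent.GAL.Desc.isFF_FF_Kbar M
  have i5 := Fermat.Agent.GAL.Igusa.isAlgClosed_residueField A
  have i4 := Fermat.Agent.GAL.Igusa.isFF_E (IsLocalRing.ResidueField ↥A) M hM
  have hg : DR.Conc.GoodRed A M :=
    DR.Conc.goodRed_of_neat A M hM Fermat.Agent.GAL.Igusa.cuspUpper Fermat.Agent.GAL.Igusa.cuspLower
      hneat
  have hinv' : (r : Qb)⁻¹ ∉ A := by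
    intro hinv
    have h1 : (r : Qb) ∈ A.nonunits := hA
    rw [ValuationSubring.mem_nonunits_iff_exists_mem_maximalIdeal] at h1
    obtain ⟨hmem, hmax⟩ := h1
    apply (IsLocalRing.mem_maximalIdeal _).mp hmax
    rw [isUnit_iff_exists_inv]
    refine ⟨⟨_, hinv⟩, Subtype.ext ?_⟩
    have h0 : (r : Qb) ≠ 0 := by exact_mod_cast hr.ne_zero
    exact mul_inv_cancel₀ h0
  obtain ⟨rr, hrr⟩ := exists_galRed hM r hinv' hg
  have hRA : (DR.Conc.RM A M hM).A = A := DR.Conc.gaussRedData'_A A M hM _ _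
  have key := flatCoc_of_galRed (R := DR.Conc.RM A M hM) (rr := rr) (rhoN M) (baseAut_rhoN M) hrr hg
    ?_ ?_ hr hD00 hinv hx0 z hz
  · rwa [hRA] at key
  · intro t ht P
    rw [hRA] at ht
    have h1 := S37.IsRedMap.smul_comm hg hrr.isRedMap (rhoN M t) 1
      (fun f => by rw [one_smul]; exact S36.Kron.RM_red_gal_of_inertia A M hM ht f) P
    rwa [one_smul] at h1
  · intro t ht a ha
    rw [hRA] at ht ha ⊢
    exact (S36R.K0L.inertia_map_mem_iff A hr hA ht a).2 ha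

end Fermat.Agent.S15.F
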