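/-
S15, route W, block F: OUTPUT.  The Kummer cocycle of a `G_ℚ`-invariant divisor of degree `0` on `X₀(N)` is `FlatCoc` at
every place `A ∣ r`, `r ∤ N`  (any level `N`).
-/
import Fermat.Agent.S15.F.Neat
import Fermat.Agent.S15.F.Lvl

set_option autoImplicit false
set_option linter.unusedSectionVars false

namespace Fermat.Agent.S15.F

open AlgebraicCurve ModularCurve Fermat.Agent.Lib.RR Fermat.Agent.S19 Fermat.Agent.S15.W

theorem kummerFlat_neat {M r : ℕ} [NeZero M] (hr : r.Prime) (hrM : ¬ r ∣ M) (hneat : 4 ∣ M ∨ 9 ∣ M)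
    (A : ValuationSubring Qb) (hA : A.LiesOverPrime r) : KummerFlat A (rhoN M) r :=
  fun _ D hD hinv x1 hx1 z hz => neat hr hrM hneat A hA D hD hinv x1 hx1 z hz

theorem kummerFlat {N r : ℕ} [NeZero N] (hr : r.Prime) (hrN : ¬ r ∣ N)
    (A : ValuationSubring Qb) (hA : A.LiesOverPrime r) : KummerFlat A (rhoN N) r := by
  have : Fact r.Prime := ⟨hr⟩
  obtain ⟨M, hM0, hNM, hrM, hneat⟩ := exists_neat_level N r hrN
  have : NeZero M := ⟨hM0⟩
  obtain ⟨i0, i1, i2, i3, i4, i5, hcompat⟩ := Lvl.towerContract N M hNM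
  exact KummerFlat.of_cover (rhoN N) (rhoN M) hcompat hr (kummerFlat_neat hr hrM hneat A hA)

/-- **F.main.** -/
theorem main {N r k : ℕ} [NeZero N] (hr : r.Prime) (hrN : ¬ r ∣ N)
    (A : ValuationSubring Qb) (hA : A.LiesOverPrime r) (D : Divisor Qb (FN N))
    (hD : D ∈ Divisor.degZero (K := Qb) (F := FN N)) (hinv : ∀ σ : GQ, rhoN N σ • D = D)
    (x1 : JZero N) (hx1 : r ^ k • x1 = Pic0.mk ⟨D, hD⟩)
    (z : GQ → Pic0.torsion Qb (FN N) (r ^ k)) (hz : ∀ σ, (z σ : JZero N) = σ • x1 - x1) :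
    FlatCoc A z :=
  kummerFlat hr hrN A hA k D hD hinv x1 hx1 z hz

end Fermat.Agent.S15.F
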