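/-
S15, route W, block F (flat Kummer cocycle): F-FORM.

The explicit formula for the Weil pairing of a Kummer cocycle.  `x0` a class with `m x0 = [D00]`, `D00` fixed by
`t`; `(X0, f0)`: `div f0 = m X0 - D00`; `(E, g)` a representative of `y ∈ J[m]`.  Then

  `weil m (t x0 - x0) (t y) = t(f0(E)) * f0(t E)⁻¹ * (t g)(X0) * t(g(X0))⁻¹`.
-/
import Fermat.Agent.S19.Weil.Pairing

set_option autoImplicit false
set_option linter.unusedSectionVars false

namespace Fermat.Agent.S15.F

open AlgebraicCurve Fermat.Agent.Lib.RR Fermat.Agent.S19.Weil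

variable {K F : Type*} [Field K] [IsAlgClosed K] [CharZero K] [Field F] [Algebra K F] [IsFF K F]

/-- `(X0, f0)` represents a class `x0` with `m x0 = [D00]`. -/
structure IsKRep (m : ℕ) (x0 : Pic0 K F) (D00 X0 : Divisor K F) (f0 : F) : Prop where
  deg : X0 ∈ Divisor.degZero (K := K) (F := F)
  cls : Pic0.mk ⟨X0, deg⟩ = x0
  ne : f0 ≠ 0
  div : divOf (K := K) f0 = m • X0 - D00

theorem IsKRep.isRep (t : SemilinearAut K F) {m : ℕ} {x0 : Pic0 K F} {D00 X0 : Divisor K F} {f0 : F}
    (h : IsKRep m x0 D00 X0 f0) (hinv : t • D00 = D00) :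
    IsRep m (t • x0 - x0) (t • X0 - X0) (t • f0 / f0) := by
  have hd1 : t • X0 ∈ Divisor.degZero (K := K) (F := F) := SemilinearAut.smul_mem_degZero t h.deg
  have hd : t • X0 - X0 ∈ Divisor.degZero (K := K) (F := F) := sub_mem hd1 h.deg
  have htf : t • f0 ≠ 0 := (smul_ne_zero_iff_ne t).mpr h.ne
  refine ⟨hd, ?_, div_ne_zero htf h.ne, ?_⟩
  · have h1 : t • x0 = Pic0.mk ⟨t • X0, hd1⟩ := by
      rw [← h.cls, SemilinearAut.pic0_smul_mk]
      exact congrArg Pic0.mk (Subtype.ext (SemilinearAut.coe_degZeroSMulHom t ⟨X0, h.deg⟩))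
    rw [h1, ← h.cls]
    rfl
  · rw [div_eq_mul_inv, divOf_mul htf (inv_ne_zero h.ne), divOf_inv, divOf_smul, h.div, smul_sub,
      hinv, smul_comm, smul_sub]
    abel

/-- **F-FORM.** -/
theorem weil_kummer (t : SemilinearAut K F) {m : ℕ} {x0 y : Pic0 K F} {D00 X0 E : Divisor K F}
    {f0 g : F} (h : IsKRep m x0 D00 X0 f0) (hinv : t • D00 = D00) (hE : IsRep m y E g)
    (h1 : DisjD X0 E) (h2 : DisjD X0 (t • E)) (h3 : DisjD D00 E) :
    weil m (t • x0 - x0) (t • y) =
      Units.map (SemilinearAut.baseAut t : K →* K) (evD f0 E) * (evD f0 (t • E))⁻¹ *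
        evD (t • g) X0 * (Units.map (SemilinearAut.baseAut t : K →* K) (evD g X0))⁻¹ := by
  have htf : t • f0 ≠ 0 := (smul_ne_zero_iff_ne t).mpr h.ne
  have hd : DisjD (t • X0 - X0) (t • E) := by
    intro P
    rcases h2 P with h4 | h4
    · rcases h1 (t⁻¹ • P) with h5 | h5
      · left
        rw [Finsupp.sub_apply, SemilinearAut.divisor_smul_apply, h5, h4, sub_zero]
      · right
        rw [SemilinearAut.divisor_smul_apply, h5]
    · exact Or.inr h4
  have hdj1 : Disj f0 (t • E) := by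
    refine ⟨h.ne, fun P hP => ?_⟩
    have h4 : X0 P = 0 := (h2 P).resolve_right hP
    have h5 : D00 P = 0 := by
      rw [SemilinearAut.divisor_smul_apply] at hP
      have := (h3 (t⁻¹ • P)).resolve_right hP
      rw [← hinv, SemilinearAut.divisor_smul_apply]
      exact this
    have h6 : divOf (K := K) f0 P = 0 := by
      rw [h.div, Finsupp.sub_apply, Finsupp.smul_apply, h4, h5]
      simp
    rwa [divOf_apply] at h6
  have hdj2 : Disj (t • f0) (t • E) := by
    refine ⟨htf, fun P hP => ?_⟩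
    rw [SemilinearAut.divisor_smul_apply] at hP
    have h4 : X0 (t⁻¹ • P) = 0 := (h1 _).resolve_right hP
    have h5 : D00 (t⁻¹ • P) = 0 := (h3 _).resolve_right hP
    have h6 : divOf (K := K) (t • f0) P = 0 := by
      rw [divOf_smul, SemilinearAut.divisor_smul_apply, h.div, Finsupp.sub_apply,
        Finsupp.smul_apply, h4, h5]
      simp
    rwa [divOf_apply] at h6
  rw [weil_eq (h.isRep t hinv) (hE.smul t) hd, evD_div hdj2 hdj1, evD_sub, evD_smul, evD_smul]
  rw [div_eq_mul_inv, div_eq_mul_inv, div_eq_mul_inv, mul_inv, inv_inv]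
  rw [mul_assoc, mul_assoc, mul_assoc]
  congr 2
  rw [mul_comm]

end Fermat.Agent.S15.F
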